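import Fermat.Agent.ModelChange.Basic

/-!
# Traces of Frobenius over the field with three elements

For the ordinary curves with `a = ±2` and for the supersingular models `y² = x³ - x ± 1` the trace
is read off from the invariants by counting points.
-/

set_option autoImplicit false

open WeierstrassCurve

namespace Fermat.Agent.LT.Chain

/-- The number of affine points of a cubic over the field with three elements. -/
def affineCountThree (a₁ a₂ a₃ a₄ a₆ : ZMod 3) : ℕ :=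
  (Finset.univ.filter fun z : ZMod 3 × ZMod 3 =>
    z.2 ^ 2 + a₁ * z.1 * z.2 + a₃ * z.2 = z.1 ^ 3 + a₂ * z.1 ^ 2 + a₄ * z.1 + a₆).card

theorem trace_three_count (V : WeierstrassCurve (ZMod 3)) (hΔ : V.Δ ≠ 0) :
    V.traceOfFrobenius = 3 - (affineCountThree V.a₁ V.a₂ V.a₃ V.a₄ V.a₆ : ℤ) := by
  rw [traceOfFrobenius, WeierstrassCurve.card,
    Nat.card_congr (ModelChange.pointEquivOption V.toAffine hΔ), Finite.card_option, Nat.card_zmod]
  have e : Nat.card {z : ZMod 3 × ZMod 3 // V.toAffine.Equation z.1 z.2}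
      = affineCountThree V.a₁ V.a₂ V.a₃ V.a₄ V.a₆ := by
    rw [Nat.card_congr (Equiv.subtypeEquivRight fun z : ZMod 3 × ZMod 3 =>
        Affine.equation_iff z.1 z.2), Nat.card_eq_fintype_card, Fintype.card_subtype]
    rfl
  rw [e]
  push_cast
  ring

theorem count_ordinaryTwo : ∀ a₁ a₂ a₃ a₄ a₆ : ZMod 3,
    (⟨a₁, a₂, a₃, a₄, a₆⟩ : WeierstrassCurve (ZMod 3)).c₄ ≠ 0 →
    (⟨a₁, a₂, a₃, a₄, a₆⟩ : WeierstrassCurve (ZMod 3)).Δ
      + (⟨a₁, a₂, a₃, a₄, a₆⟩ : WeierstrassCurve (ZMod 3)).c₄ = 0 →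
    affineCountThree a₁ a₂ a₃ a₄ a₆
      = if (⟨a₁, a₂, a₃, a₄, a₆⟩ : WeierstrassCurve (ZMod 3)).c₆ = 1 then 1 else 5 := by
  decide +kernel

/-- An ordinary curve with `a = ±2` has trace determined by `c₆`. -/
theorem trace_ordinaryTwo (V : WeierstrassCurve (ZMod 3)) (hc : V.c₄ ≠ 0)
    (h : V.Δ + V.c₄ = 0) : V.traceOfFrobenius = if V.c₆ = 1 then 2 else -2 := by
  have hΔ : V.Δ ≠ 0 := fun h0 => hc (by rwa [h0, zero_add] at h)
  rw [trace_three_count V hΔ, count_ordinaryTwo _ _ _ _ _ hc h]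
  split <;> norm_num

theorem count_supersingularModel : ∀ x : ZMod 3, x ≠ 0 →
    affineCountThree 0 0 0 2 x = if x = 1 then 6 else 0 := by decide +kernel

/-- The models `y² = x³ - x ± 1` are nonsingular. -/
theorem Δ_supersingularModel : ∀ x : ZMod 3,
    (⟨0, 0, 0, 2, x⟩ : WeierstrassCurve (ZMod 3)).Δ ≠ 0 := by decide +kernel

/-- Trace of `y ^ 2 = x ^ 3 - x ± 1`. -/
theorem trace_supersingularModel {x : ZMod 3} (hx : x ≠ 0) :
    (⟨0, 0, 0, 2, x⟩ : WeierstrassCurve (ZMod 3)).traceOfFrobenius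
      = if x = 1 then -3 else 3 := by
  rw [trace_three_count _ (Δ_supersingularModel x), count_supersingularModel x hx]
  split <;> norm_num

end Fermat.Agent.LT.Chain
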