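import Fermat.Agent.TWHyp.Curve
import Fermat.Agent.ConductorLevel.ResidualIrred
import Fermat.Agent.ECTorsion.Galois

/-!
# Irreducibility of the `5`-torsion when `a₃ = ±2`

The characteristic polynomial `X² ∓ 2X + 3` of Frobenius at three has no root modulo five.
-/

set_option autoImplicit false

noncomputable section

open WeierstrassCurve WeierstrassCurve.Affine WeierstrassCurve.Affine.Point
open scoped WeierstrassCurve.Affine

namespace Fermat.Agent.LT.Chain

variable {W : WeierstrassCurve ℤ}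

lemma quad_no_root : ∀ k : ZMod 5, k * k - k * 2 + 3 ≠ 0 ∧ k * k - k * -2 + 3 ≠ 0 := by
  decide

/-- Trace `±2` at a good `3` forces irreducibility mod `5`. -/
theorem modRepIsIrreducible_five (hg : W.IsGoodPrimeFor 3)
    (ha : W.apOfModel 3 = 2 ∨ W.apOfModel 3 = -2) : W.ModRepIsIrreducible 5 := by
  have : Fact (Nat.Prime 5) := ⟨by norm_num⟩
  have hΔ : W.Δ ≠ 0 := fun h => hg (h ▸ dvd_zero _)
  have hV := ECTorsion.finrank_torsionBy_rat (W.map (Int.castRingHom ℚ))
    (ECTorsion.Δ_map_intCast_ne_zero W hΔ) 5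
  have : Module.Finite (ZMod 5) (Submodule.torsionBy ℤ
      ((W.map (Int.castRingHom ℚ))⁄(AlgebraicClosure ℚ)).Point (5 : ℕ)) :=
    Module.finite_of_finrank_eq_succ hV
  obtain ⟨A, hA⟩ := GaloisBasics.exists_liesOverPrime Nat.prime_three
  obtain ⟨φ, hφ⟩ := GaloisBasics.exists_isFrobeniusAt hA Nat.prime_three
  obtain ⟨ht, hd⟩ := TWHyp.frobenius_trace_det W (n := 5) Nat.prime_three (by norm_num) hg hA hφ
  have hch := LinearMap.aeval_self_charpoly (TWHyp.torsionEnd W 5 φ)
  rw [ConductorLevel.charpoly_eq_of_finrank_two hV, ht, hd] at hch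
  refine ⟨Module.nontrivial_of_finrank_pos (R := ZMod 5) (hV ▸ two_pos), fun N hN =>
    ConductorLevel.eq_bot_or_top_of_no_stable_line hV (TWHyp.torsionEnd W 5) (fun v hv => ?_) N
      fun g x hx => hN g x hx⟩
  refine ⟨φ, fun k hk => ?_⟩
  have h := LinearMap.congr_fun hch v
  simp only [map_add, map_sub, map_mul, Polynomial.aeval_X, Polynomial.aeval_C, sq,
    LinearMap.add_apply, LinearMap.sub_apply, Module.End.mul_apply, hk, map_smul, smul_smul,
    Module.algebraMap_end_apply, LinearMap.zero_apply] at h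
  rw [← sub_smul, ← add_smul, smul_eq_zero] at h
  have h0 := h.resolve_right hv
  rcases ha with e | e <;> rw [e] at h0 <;> push_cast at h0
  · exact (quad_no_root k).1 h0
  · exact (quad_no_root k).2 h0

end Fermat.Agent.LT.Chain

end
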