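import Fermat.Agent.LT.Chain.Defs
import Fermat.Agent.LT.Chain.Local
import Fermat.Agent.LT.Chain.FiveTraceThree
import Fermat.Agent.SwitchThree.Main

/-!
# The switch at three to good ordinary reduction with `a₃ = ±2`

A semistable curve with irreducible `3`-torsion and good ordinary or finite flat reduction at three
is congruent modulo three to a semistable curve with `a₃ = ±2`, whose `5`-torsion is then
irreducible. The curve is taken in the direct pencil at the parameter `(-c₆ + 3^m ζ, c₄)`.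
-/

set_option autoImplicit false

open WeierstrassCurve Fermat.Agent.SwitchThree

namespace Fermat.Agent.LT.Chain

variable {W : WeierstrassCurve ℤ}

theorem c₄_mod_three (hc : ¬ (3 : ℤ) ∣ W.c₄) : (3 : ℤ) ∣ W.c₄ - 1 := by
  have e : W.c₄ = W.b₂ ^ 2 - 3 * (8 * W.b₄) := by rw [WeierstrassCurve.c₄]; ring
  have hb : W.b₂ % 3 ≠ 0 := fun h => hc (by
    rw [e]; exact dvd_sub (dvd_pow (Int.dvd_of_emod_eq_zero h) two_ne_zero) (dvd_mul_right _ _))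
  have h2 : W.b₂ ^ 2 % 3 = 1 := by
    rw [pow_two, Int.mul_emod]
    rcases (show W.b₂ % 3 = 1 ∨ W.b₂ % 3 = 2 by omega) with h | h <;> rw [h] <;> norm_num
  omega

/-- Good ordinary reduction at `3` with `Δ ≡ -c₄` means `a₃ = ±2`. -/
theorem apOfModel_three_of_ordinaryTwo (h : OrdinaryTwoAtThree W) :
    W.apOfModel 3 = 2 ∨ W.apOfModel 3 = -2 := by
  obtain ⟨-, hc, hs⟩ := h
  rw [show W.apOfModel 3 = (W.reductionMod 3).traceOfFrobenius from rfl, trace_ordinaryTwo _ ?_ ?_]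
  · split <;> simp
  · rw [reductionMod, map_c₄, eq_intCast, Ne, ZMod.intCast_zmod_eq_zero_iff_dvd]
    exact_mod_cast hc
  · rw [reductionMod, map_Δ, map_c₄, eq_intCast, eq_intCast, ← Int.cast_add,
      ZMod.intCast_zmod_eq_zero_iff_dvd]
    exact_mod_cast hs

/-- `a₃ = ±2` makes the representation at five irreducible. -/
theorem irreducible_five_of_ordinaryTwo (h : OrdinaryTwoAtThree W) : W.ModRepIsIrreducible 5 :=
  modRepIsIrreducible_five (fun hd => h.1 (by exact_mod_cast hd))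
    (apOfModel_three_of_ordinaryTwo h)

/-- The model with `aᵢ` replaced by `λ^i aᵢ`. -/
def scaleModel (V : WeierstrassCurve ℤ) (l : ℤ) : WeierstrassCurve ℤ :=
  ⟨l * V.a₁, l ^ 2 * V.a₂, l ^ 3 * V.a₃, l ^ 4 * V.a₄, l ^ 6 * V.a₆⟩

variable (V : WeierstrassCurve ℤ) (l : ℤ)

theorem scaleModel_c₄ : (scaleModel V l).c₄ = l ^ 4 * V.c₄ := by
  simp only [scaleModel, WeierstrassCurve.c₄, WeierstrassCurve.b₂, WeierstrassCurve.b₄]; ring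

theorem scaleModel_c₆ : (scaleModel V l).c₆ = l ^ 6 * V.c₆ := by
  simp only [scaleModel, WeierstrassCurve.c₆, WeierstrassCurve.b₂, WeierstrassCurve.b₄,
    WeierstrassCurve.b₆]; ring

theorem scaleModel_Δ : (scaleModel V l).Δ = l ^ 12 * V.Δ := by
  simp only [scaleModel, WeierstrassCurve.Δ, WeierstrassCurve.b₂, WeierstrassCurve.b₄,
    WeierstrassCurve.b₆, WeierstrassCurve.b₈]; ring

theorem scaleModel_isIntegralModelOf (hl : l ≠ 0) :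
    (scaleModel V l).IsIntegralModelOf (V.map (Int.castRingHom ℚ)) := by
  refine ⟨⟨(Units.mk0 (l : ℚ) (by exact_mod_cast hl))⁻¹, 0, 0, 0⟩, ?_⟩
  ext <;> simp [variableChange_def, scaleModel]

/-- A `3`-adic local model with given unit invariants. -/
theorem exists_local_three_ordinary (A B : ℤ) (hA : ¬ (3 : ℤ) ∣ A) (h : 27 ∣ A ^ 3 - B ^ 2) :
    ∃ V : WeierstrassCurve ℤ, 3 ^ 8 ∣ A - V.c₄ ∧ 3 ^ 8 ∣ B - V.c₆ := by
  have hco : IsCoprime A ((3 : ℤ) ^ 12) := ((Int.prime_three.coprime_iff_not_dvd.2 hA).symm).pow_right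
  obtain ⟨u, v, huv⟩ := hco
  set b := -B * u with hb
  have hbA : b * A + B = B * v * 3 ^ 12 := by rw [hb]; linear_combination -B * huv
  obtain ⟨Y, hY⟩ : (27 : ℤ) ∣ b ^ 2 - A := by
    have h1 : (27 : ℤ) ∣ A ^ 2 * (b ^ 2 - A) := by
      obtain ⟨w, hw⟩ := h
      exact ⟨-w + B * v * 3 ^ 9 * (b * A - B), by linear_combination (b * A - B) * hbA - hw⟩
    refine IsCoprime.dvd_of_dvd_mul_left ?_ h1
    rw [show (27 : ℤ) = 3 ^ 3 by norm_num]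
    exact ((Int.prime_three.coprime_iff_not_dvd.2 hA).pow_left).pow_right
  -- `6151 * 16 = 1 + 15 * 6561`, `4921 * 4 = 1 + 3 * 6561`
  obtain ⟨a₂, ha₂⟩ : ∃ a₂, 4 * a₂ = b + b * 3 * 6561 := ⟨b * 4921, by ring⟩
  obtain ⟨b', hb'⟩ : ∃ b', b' = b + b * 3 * 6561 := ⟨_, rfl⟩
  rw [← hb'] at ha₂
  obtain ⟨a₄, ha₄⟩ : ∃ a₄, a₄ = 9 * Y * 6151 := ⟨_, rfl⟩
  obtain ⟨D, hD⟩ : (27 : ℤ) ∣ -b' ^ 3 + 72 * b' * a₄ - B := by
    have h2 : (27 : ℤ) ∣ 2 * (-b' ^ 3 + 72 * b' * a₄ - B) := by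
      refine ⟨-2 * b * Y + 48 * 6151 * b' * Y - 2 * B * v * 3 ^ 9
        - 2187 * 2 * b ^ 3 * (1 + 3 * 6561 + 3 * 6561 ^ 2), ?_⟩
      rw [hb', ha₄]
      linear_combination -2 * b * hY - 2 * hbA
    omega
  refine ⟨⟨0, a₂, 0, a₄, D * 6356⟩, ?_, ?_⟩
  · refine ⟨-(b ^ 2 * 3 * (2 + 3 * 6561)) + Y * 405, ?_⟩
    simp only [WeierstrassCurve.c₄, WeierstrassCurve.b₂, WeierstrassCurve.b₄]
    rw [show (0 : ℤ) ^ 2 + 4 * a₂ = b' by linear_combination ha₂, ha₄, hb']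
    linear_combination -hY
  · refine ⟨D * 837, ?_⟩
    simp only [WeierstrassCurve.c₆, WeierstrassCurve.b₂, WeierstrassCurve.b₄, WeierstrassCurve.b₆]
    rw [show (0 : ℤ) ^ 2 + 4 * a₂ = b' by linear_combination ha₂]
    linear_combination -hD

/-- No prime `q ≥ 5` divides both invariants of a member of the direct pencil which is the base
curve at every bad `q`. -/
theorem direct_semistable_at {W : WeierstrassCurve ℤ} (hW : W.IsSemistableModel) {u v : ℤ}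
    (huv : IsCoprime u v) {q : ℕ} (hq : q.Prime) (h5 : 5 ≤ q)
    (hb : (q : ℤ) ∣ W.Δ → (q : ℤ) ∣ u - 1 ∧ (q : ℤ) ∣ v) :
    ¬ ((q : ℤ) ∣ penC4 W.c₄ W.c₆ u v ∧ (q : ℤ) ∣ penC6 W.c₄ W.c₆ u v) := by
  rintro ⟨h₄, h₆⟩
  by_cases hqΔ : (q : ℤ) ∣ W.Δ
  · refine hW q hq hqΔ ?_
    have h := (pen_congr W.c₄ W.c₆ (hb hqΔ).1
      (show (q : ℤ) ∣ v - 0 by simpa using (hb hqΔ).2)).1
    rw [penC4_one_zero] at h
    simpa using dvd_sub h₄ h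
  · refine no_common_zero hq h5 hqΔ (not_dvd_both_of_isCoprime hq huv) ⟨h₄, ?_⟩
    have hp := Nat.prime_iff_prime_int.mp hq
    refine hp.dvd_of_dvd_pow (n := 3) ((hp.dvd_or_dvd (a := discAB W.c₄ W.c₆) ?_).resolve_left ?_)
    · rw [← penC4_cube_sub]
      exact dvd_sub (dvd_pow h₄ three_ne_zero) (dvd_pow h₆ two_ne_zero)
    · rw [show discAB W.c₄ W.c₆ = (2 : ℤ) ^ 6 * 3 ^ 3 * W.Δ by
        rw [discAB_c₄_c₆]; norm_num]
      exact fun h => (hp.dvd_or_dvd h).elim (prime_not_dvd_of_factors hq h5 6 3) hqΔ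

/-- The pencil at `(-b + z, a)`. -/
theorem pen_at_shift (a b z : ℤ) :
    penC4 a b (-b + z) a = a * (z ^ 4 + 6 * (a ^ 3 - b ^ 2) * z ^ 2 - 8 * b * (a ^ 3 - b ^ 2) * z
        - 3 * (a ^ 3 - b ^ 2) ^ 2) ∧
      penD a b (-b + z) a = z ^ 4 - 4 * b * z ^ 3 - 6 * (a ^ 3 - b ^ 2) * z ^ 2
        + 4 * b * (a ^ 3 - b ^ 2) * z - (a ^ 3 - b ^ 2) * (4 * b ^ 2 + 3 * (a ^ 3 - b ^ 2)) := by
  constructor <;> simp only [penC4, penD] <;> ring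

/-- The valuations at three of the member at `(-c₆ + 3^m ζ, c₄)`. -/
theorem pen_three (hc : ¬ (3 : ℤ) ∣ W.c₄) {m : ℕ} {δ : ℤ} (hΔ : W.Δ = 3 ^ (3 * m) * δ) {ζ u v : ℤ}
    (hu : (3 : ℤ) ^ (6 * m + 3) ∣ u - (-W.c₆ + 3 ^ m * ζ))
    (hv : (3 : ℤ) ^ (6 * m + 3) ∣ v - W.c₄) :
    ∃ A D : ℤ, penC4 W.c₄ W.c₆ u v = 3 ^ (4 * m) * A ∧ penD W.c₄ W.c₆ u v = 3 ^ (3 * m) * D ∧
      (3 : ℤ) ∣ A - ζ ^ 4 ∧ (3 : ℤ) ∣ D - (3 ^ m * ζ ^ 4 - W.c₆ * ζ ^ 3) := by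
  obtain ⟨c, hc1⟩ := c₄_mod_three hc
  obtain ⟨e4, eD⟩ := pen_at_shift W.c₄ W.c₆ (3 ^ m * ζ)
  obtain ⟨r4, -, rD⟩ := pen_congr W.c₄ W.c₆ hu hv
  obtain ⟨k4, hk4⟩ := r4
  obtain ⟨kD, hkD⟩ := rD
  have hd : W.c₄ ^ 3 - W.c₆ ^ 2 = 1728 * W.Δ := W.c_relation.symm
  rw [e4, hd, hΔ] at hk4
  rw [eD, hd, hΔ] at hkD
  set n : ℤ := 3 ^ m with hn
  have p3 : (3 : ℤ) ^ (3 * m) = n ^ 3 := by rw [hn, ← pow_mul]; ring_nf
  have p4 : (3 : ℤ) ^ (4 * m) = n ^ 4 := by rw [hn, ← pow_mul]; ring_nf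
  have p6 : (3 : ℤ) ^ (6 * m + 3) = n ^ 6 * 27 := by rw [hn, ← pow_mul, pow_add]; ring_nf
  rw [p3, p6] at hk4 hkD
  rw [p3, p4]
  refine ⟨W.c₄ * (ζ ^ 4 + 6 * 1728 * δ * n * ζ ^ 2 - 8 * W.c₆ * 1728 * δ * ζ
      - 3 * 1728 ^ 2 * δ ^ 2 * n ^ 2) + n ^ 2 * 27 * k4,
    n * ζ ^ 4 - 4 * W.c₆ * ζ ^ 3 - 6 * 1728 * δ * n ^ 2 * ζ ^ 2 + 4 * W.c₆ * 1728 * δ * n * ζ
      - 1728 * δ * (4 * W.c₆ ^ 2 + 3 * 1728 * δ * n ^ 3) + n ^ 3 * 27 * kD,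
    by linear_combination hk4, by linear_combination hkD,
    ⟨c * ζ ^ 4 + W.c₄ * (2 * 1728 * δ * n * ζ ^ 2 - 8 * W.c₆ * 576 * δ * ζ
      - 1728 ^ 2 * δ ^ 2 * n ^ 2) + n ^ 2 * 9 * k4, by linear_combination ζ ^ 4 * hc1⟩,
    ⟨-W.c₆ * ζ ^ 3 - 2 * 1728 * δ * n ^ 2 * ζ ^ 2 + 4 * W.c₆ * 576 * δ * n * ζ
      - 576 * δ * (4 * W.c₆ ^ 2 + 3 * 1728 * δ * n ^ 3) + n ^ 3 * 9 * kD, by ring⟩⟩

theorem exists_zeta (hc : ¬ (3 : ℤ) ∣ W.c₄) {m : ℕ} {δ : ℤ} (hΔ : W.Δ = 3 ^ (3 * m) * δ)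
    (hδ : ¬ (3 : ℤ) ∣ δ) (hnot : ¬ OrdinaryTwoAtThree W) :
    ∃ ζ : ℤ, ∀ A D : ℤ, (3 : ℤ) ∣ A - ζ ^ 4 →
      (3 : ℤ) ∣ D - (3 ^ m * ζ ^ 4 - W.c₆ * ζ ^ 3) →
      ¬ (3 : ℤ) ∣ A ∧ ¬ (3 : ℤ) ∣ D ∧ (3 : ℤ) ∣ δ * D ^ 3 + A := by
  have hc6 : ¬ (3 : ℤ) ∣ W.c₆ := by
    intro h
    refine hc (Int.prime_three.dvd_of_dvd_pow (n := 3) ?_)
    rw [show W.c₄ ^ 3 = 3 * (576 * W.Δ) + W.c₆ ^ 2 by linear_combination -W.c_relation]
    exact dvd_add (dvd_mul_right _ _) (dvd_pow h two_ne_zero)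
  have e : ∀ x : ℤ, (x : ZMod 3) = 0 ↔ (3 : ℤ) ∣ x := fun x =>
    ZMod.intCast_zmod_eq_zero_iff_dvd x 3
  simp only [← e, Int.cast_sub, Int.cast_add, Int.cast_mul, Int.cast_pow, Int.cast_ofNat]
    at hδ hc hc6 ⊢
  rcases Nat.eq_zero_or_pos m with rfl | hm
  · have hδ1 : (δ : ZMod 3) = 1 := by
      have hΔ' : W.Δ = δ := by simpa using hΔ
      have h1 := (e _).2 (c₄_mod_three (fun h => hc ((e _).2 h)))
      have : ((δ + W.c₄ : ℤ) : ZMod 3) ≠ 0 := fun h => hnot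
        ⟨fun hd => hδ ((e _).2 (hΔ' ▸ hd)), fun h' => hc ((e _).2 h'),
          (e _).1 (by rw [hΔ']; exact h)⟩
      push_cast at h1 this
      have k : ∀ x c : ZMod 3, x ≠ 0 → c - 1 = 0 → x + c ≠ 0 → x = 1 := by decide
      exact k _ _ hδ h1 this
    refine ⟨-W.c₆, fun A D hA hD => ?_⟩
    push_cast at hA hD
    simp only [pow_zero] at hD
    rw [hδ1]
    have k : ∀ A D b : ZMod 3, b ≠ 0 → A - (-b) ^ 4 = 0 →
        D - (1 * (-b) ^ 4 - b * (-b) ^ 3) = 0 → A ≠ 0 ∧ D ≠ 0 ∧ 1 * D ^ 3 + A = 0 := by decide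
    exact k _ _ _ hc6 hA hD
  · have h0 : (3 : ZMod 3) ^ m = 0 := by
      rw [show (3 : ZMod 3) = 0 from rfl, zero_pow hm.ne']
    refine ⟨δ * W.c₆, fun A D hA hD => ?_⟩
    push_cast at hA hD
    rw [h0] at hD
    have k : ∀ A D d b : ZMod 3, d ≠ 0 → b ≠ 0 → A - (d * b) ^ 4 = 0 →
        D - (0 * (d * b) ^ 4 - b * (d * b) ^ 3) = 0 →
        A ≠ 0 ∧ D ≠ 0 ∧ d * D ^ 3 + A = 0 := by decide
    exact k _ _ _ _ hδ hc6 hA hD

/-- **S_C.** The switch at three to good ordinary reduction with `a₃ = ±2`. -/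
theorem switchThreeOrdinary : SwitchThreeOrdinary := by
  intro W hΔ0 hW _ hp
  by_cases htwo : OrdinaryTwoAtThree W
  · exact ⟨W, hΔ0, hW, irreducible_five_of_ordinaryTwo htwo, htwo, fun ℓ _ _ _ _ => by simp⟩
  obtain ⟨hc, m, δ, hΔ, hδ⟩ := hp
  obtain ⟨ζ, hζ⟩ := exists_zeta hc hΔ hδ htwo
  set M : ℤ := 2 ^ 12 * δ with hM
  set N : ℤ := (3 : ℤ) ^ (6 * m + 3) with hN
  have hM3 : ¬ (3 : ℤ) ∣ M := fun h =>
    (Int.prime_three.dvd_or_dvd h).elim (by norm_num) hδ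
  have hM0 : M ≠ 0 := fun h => hM3 (h ▸ dvd_zero _)
  have hcop : IsCoprime M N :=
    ((Int.prime_three.coprime_iff_not_dvd.2 hM3).symm).pow_right
  obtain ⟨x₀, hx₀, hx₁⟩ := exists_crt hcop 1 (-W.c₆ + 3 ^ m * ζ)
  obtain ⟨y₀, hy₀, hy₁⟩ := exists_crt hcop 0 W.c₄
  obtain ⟨u, v, huv, hu, hv⟩ := exists_coprime_lift (M := M * N)
    (mul_ne_zero hM0 (pow_ne_zero _ (by norm_num))) (u₀ := x₀) (v₀ := y₀) (by
      intro p hp hd ⟨hpu, hpv⟩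
      have hp' := Nat.prime_iff_prime_int.mp hp
      rcases hp'.dvd_or_dvd hd with h | h
      · exact hp'.not_dvd_one (by simpa using dvd_sub hpu (h.trans hx₀))
      · obtain rfl : p = 3 := (Nat.prime_dvd_prime_iff_eq hp Nat.prime_three).mp
          (Int.natCast_dvd_natCast.mp (by exact_mod_cast hp'.dvd_of_dvd_pow h))
        exact hc ((dvd_sub_right hpv).mp (h.trans hy₁)))
  have hu1 : M ∣ u - 1 := by simpa using dvd_add ((dvd_mul_right M _).trans hu) hx₀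
  have hv0 : M ∣ v := by simpa using dvd_add ((dvd_mul_right M _).trans hv) hy₀
  have hu3 : N ∣ u - (-W.c₆ + 3 ^ m * ζ) := by
    simpa using dvd_add ((dvd_mul_left N M).trans hu) hx₁
  have hv3 : N ∣ v - W.c₄ := by simpa using dvd_add ((dvd_mul_left N M).trans hv) hy₁
  obtain ⟨A, D, eA, eD, hA', hD'⟩ := pen_three hc hΔ hu3 hv3
  obtain ⟨hA3, hD3, hAD⟩ := hζ A D hA' hD'
  set lam : ℤ := 3 ^ m with hlam
  have hlam0 : lam ≠ 0 := pow_ne_zero _ (by norm_num)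
  rw [show (3 : ℤ) ^ (4 * m) = lam ^ 4 by rw [hlam, ← pow_mul, mul_comm]] at eA
  rw [show (3 : ℤ) ^ (3 * m) = lam ^ 3 by rw [hlam, ← pow_mul, mul_comm]] at eD hΔ
  -- the sextic covariant
  have hcube := penC4_cube_sub W.c₄ W.c₆ u v
  rw [discAB_c₄_c₆, eA, eD, hΔ] at hcube
  obtain ⟨B, eB⟩ : lam ^ 6 ∣ penC6 W.c₄ W.c₆ u v := by
    refine (Int.pow_dvd_pow_iff (n := 2) two_ne_zero).1 ⟨A ^ 3 - 1728 * δ * D ^ 3, ?_⟩
    linear_combination -hcube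
  rw [eB] at hcube
  have hrel : A ^ 3 - B ^ 2 = 1728 * (δ * D ^ 3) :=
    mul_left_cancel₀ (pow_ne_zero 12 hlam0) (by linear_combination hcube)
  -- the member
  obtain ⟨W₃, hA₃, hB₃⟩ := exists_local_three_ordinary A B hA3
    ⟨64 * (δ * D ^ 3), by linear_combination hrel⟩
  have hlam2 : IsCoprime lam ((2 : ℤ) ^ 12) :=
    IsCoprime.pow_left (IsCoprime.pow_right ⟨1, -1, by norm_num⟩)
  obtain ⟨μ, ν, hμν⟩ := id hlam2
  obtain ⟨c4, c6, -⟩ := pen_congr W.c₄ W.c₆ hu1 (show M ∣ v - 0 by simpa using hv0)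
  rw [penC4_one_zero, eA] at c4
  rw [penC6_one_zero, eB] at c6
  have m2 : (2 : ℤ) ^ 12 ∣ M := dvd_mul_right _ _
  have key : ∀ (k : ℕ) (x y : ℤ), M ∣ lam ^ k * x - y → (2 : ℤ) ^ 12 ∣ x - μ ^ k * y :=
    fun k x y hxy => by
    obtain ⟨s, hs⟩ := sub_dvd_pow_sub_pow (μ * lam) 1 k
    have h1 := dvd_mul_of_dvd_right (m2.trans hxy) (μ ^ k)
    have h2 : (2 : ℤ) ^ 12 ∣ (μ * lam) ^ k - 1 :=
      ⟨-ν * s, by rw [one_pow] at hs; linear_combination hs + s * hμν⟩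
    have h3 := dvd_sub h1 (dvd_mul_of_dvd_left h2 x)
    rw [show μ ^ k * (lam ^ k * x - y) - ((μ * lam) ^ k - 1) * x = x - μ ^ k * y by
      rw [mul_pow]; ring] at h3
    exact h3
  obtain ⟨W', hc₄, hc₆, hr₂, hr₃⟩ := exists_model_of_local A B (scaleModel W μ) W₃
    (by rw [scaleModel_c₄]; exact key 4 _ _ c4) (by rw [scaleModel_c₆]; exact key 6 _ _ c6)
    hA₃ hB₃
  have hΔ' : W'.Δ = δ * D ^ 3 := by
    have e := W'.c_relation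
    rw [hc₄, hc₆, hrel] at e
    linarith
  have hμ : ¬ (2 : ℤ) ∣ μ := fun ⟨k, hk⟩ => by
    have h2 : (2 : ℤ) ∣ 1 := ⟨k * lam + ν * 2 ^ 11, by rw [← hμν, hk]; ring⟩
    norm_num at h2
  have hss : W'.IsSemistableModel := by
    refine semistable_of_local W' (scaleModel W μ) W₃ hr₂ hr₃ ?_ ?_ ?_
    · rw [scaleModel_Δ, scaleModel_c₄]
      rintro ⟨h1, h2⟩
      exact hW 2 Nat.prime_two
        ((Int.prime_two.dvd_or_dvd h1).resolve_left fun h => hμ (Int.prime_two.dvd_of_dvd_pow h))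
        ((Int.prime_two.dvd_or_dvd h2).resolve_left fun h => hμ (Int.prime_two.dvd_of_dvd_pow h))
    · rintro ⟨-, h⟩
      exact hA3 (by simpa using dvd_add ((dvd_pow_self (3 : ℤ) (by norm_num : 8 ≠ 0)).trans hA₃) h)
    · intro q hq hq5
      rw [hc₄, hc₆]
      rintro ⟨h4, h6⟩
      refine direct_semistable_at hW huv hq hq5 (fun hqΔ => ?_)
        ⟨eA ▸ dvd_mul_of_dvd_right h4 _, eB ▸ dvd_mul_of_dvd_right h6 _⟩
      have hqδ : (q : ℤ) ∣ δ := by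
        have hp := Nat.prime_iff_prime_int.mp hq
        rw [hΔ] at hqΔ
        refine (hp.dvd_or_dvd hqΔ).resolve_left fun h => ?_
        exact prime_not_dvd_of_factors hq hq5 0 m (by simpa [hlam] using hp.dvd_of_dvd_pow h)
      exact ⟨(dvd_mul_of_dvd_right hqδ _).trans hu1, (dvd_mul_of_dvd_right hqδ _).trans hv0⟩
  have hD0 : penD W.c₄ W.c₆ u v ≠ 0 :=
    direct_penD_ne_zero (((dvd_pow_self 2 (by norm_num)).trans m2).trans hu1)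
      (((dvd_pow_self 2 (by norm_num)).trans m2).trans hv0)
  have htwo' : OrdinaryTwoAtThree W' :=
    ⟨by
      rw [hΔ']
      exact fun h => (Int.prime_three.dvd_or_dvd h).elim hδ
        fun h => hD3 (Int.prime_three.dvd_of_dvd_pow h),
    by rwa [hc₄], by rwa [hc₄, hΔ']⟩
  refine ⟨W', fun h => htwo'.1 (h ▸ dvd_zero _), hss, irreducible_five_of_ordinaryTwo htwo', htwo',
    fun ℓ hℓ hg hg' hℓ3 => ?_⟩
  have hgs : (scaleModel W' lam).IsGoodPrimeFor ℓ := fun h => by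
    rw [scaleModel_Δ] at h
    have hp := Nat.prime_iff_prime_int.mp hℓ
    rcases hp.dvd_or_dvd h with h | h
    · exact hℓ3 ((Nat.prime_dvd_prime_iff_eq hℓ Nat.prime_three).mp (Int.natCast_dvd_natCast.mp
        (by exact_mod_cast hp.dvd_of_dvd_pow (hp.dvd_of_dvd_pow h))))
    · exact hg' h
  rw [← ModelChange.apOfModel_eq (scaleModel_isIntegralModelOf W' lam hlam0)
    (W' := W') ⟨1, one_smul _ _⟩ hℓ hgs hg']
  exact congruence_direct hΔ0 hD0 (by rw [scaleModel_c₄, hc₄, eA]) (by rw [scaleModel_c₆, hc₆, eB])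
    hℓ hg hgs hℓ3

end Fermat.Agent.LT.Chain
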