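import Fermat.Agent.LT.Chain.Five
import Fermat.Agent.LT.Chain.ThreeOrdinary
import Fermat.Agent.SwitchThree.Main
import Fermat.Agent.Switches.Reducible
import Fermat.Agent.ThreeFive.Torsion

/-!
# The chain of switches between three and five

Modularity at exact conductor level of every semistable model, from the residual base case at
supersingular reduction at three and modularity lifting at three and five.
-/

set_option autoImplicit false

open WeierstrassCurve

namespace Fermat.Agent.LT.Chain

/-- Supersingular reduction at three forces irreducibility. -/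
theorem irreducible_three_of_supersingular {W : WeierstrassCurve ℤ} (hΔ : W.Δ ≠ 0)
    (hs : SupersingularAtThree W) : W.ModRepIsIrreducible 3 := by
  by_contra hirr
  obtain ⟨h3, hc⟩ := hs
  have hΔQ : (W.map (Int.castRingHom ℚ)).Δ ≠ 0 := by
    rw [map_Δ]; simpa using hΔ
  obtain ⟨q, hq⟩ := ThreeFive.psi3_root _ hΔQ hirr
  have hb2 : (3 : ℤ) ∣ W.b₂ := by
    refine Int.prime_three.dvd_of_dvd_pow (n := 2) ?_
    have e : W.b₂ ^ 2 = W.c₄ + 3 * (8 * W.b₄) := by rw [WeierstrassCurve.c₄]; ring
    rw [e]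
    exact dvd_add hc (dvd_mul_right _ _)
  have hb8 : ¬ (3 : ℤ) ∣ W.b₈ := by
    intro h8
    obtain ⟨β, hβ⟩ := hb2
    have h4 : (3 : ℤ) ∣ W.b₄ ^ 2 := by
      have e := W.b_relation
      obtain ⟨γ, hγ⟩ := h8
      exact ⟨β * W.b₆ - 4 * γ, by rw [hγ, hβ] at e; linear_combination e⟩
    obtain ⟨δ, hδ⟩ := Int.prime_three.dvd_of_dvd_pow h4
    apply h3
    refine ⟨-3 * β ^ 2 * W.b₈ - 72 * δ ^ 3 - 9 * W.b₆ ^ 2 + 27 * β * δ * W.b₆, ?_⟩
    rw [WeierstrassCurve.Δ, hβ, hδ]; ring
  refine Switches.no_rational_root hb2 hb8 q ?_ (b₄ := W.b₄) (b₆ := W.b₆)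
  simp only [ThreeFive.psi3B, map_b₂, map_b₄, map_b₆, map_b₈, eq_intCast] at hq
  linear_combination hq

variable {W : WeierstrassCurve ℤ} (base : SupersingularBaseAtThree)
  (lifting : ModularityGlue.LiftingAtThreeFive)
include base lifting

/-- Supersingular reduction at three: the base case and lifting at three. -/
theorem exact_of_supersingular (hΔ : W.Δ ≠ 0) (hW : W.IsSemistableModel)
    (hs : SupersingularAtThree W) : Mlc1IsModularModelOfExactConductorLevel W := by
  have hirr := irreducible_three_of_supersingular hΔ hs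
  obtain ⟨M, hM, hres, h9, hcube⟩ := base W hΔ hW hirr hs
  have : NeZero M := ⟨hM.ne'⟩
  exact lifting 3 (Or.inl rfl) W hΔ hW hirr M hres h9 hcube

/-- `a₃ = ±2`: switch at five to the supersingular case. -/
theorem exact_of_ordinaryTwo (hΔ : W.Δ ≠ 0) (hW : W.IsSemistableModel)
    (h5 : W.ModRepIsIrreducible 5) (ht : OrdinaryTwoAtThree W) :
    Mlc1IsModularModelOfExactConductorLevel W := by
  obtain ⟨W', hΔ', hW', hs, hc⟩ := switchFiveSupersingular W hΔ hW h5 ht
  exact ModularityGlue.exactConductorLevel_of_congruent lifting (Or.inr rfl) hΔ hW h5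
    (exact_of_supersingular base lifting hΔ' hW' hs) hc

/-- Ordinary or finite flat at three: switch at three to `a₃ = ±2`. -/
theorem exact_of_ordinaryOrPeu (hΔ : W.Δ ≠ 0) (hW : W.IsSemistableModel)
    (h3 : W.ModRepIsIrreducible 3) (hp : OrdinaryOrPeuAtThree W) :
    Mlc1IsModularModelOfExactConductorLevel W := by
  obtain ⟨W', hΔ', hW', h5', ht, hc⟩ := switchThreeOrdinary W hΔ hW h3 hp
  exact ModularityGlue.exactConductorLevel_of_congruent lifting (Or.inl rfl) hΔ hW h3
    (exact_of_ordinaryTwo base lifting hΔ' hW' h5' ht) hc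

/-- Irreducible `5`-torsion: switch at five if `3 ∤ c₄`. -/
theorem exact_of_irreducible_five (hΔ : W.Δ ≠ 0) (hW : W.IsSemistableModel)
    (h5 : W.ModRepIsIrreducible 5) : Mlc1IsModularModelOfExactConductorLevel W := by
  by_cases hc4 : (3 : ℤ) ∣ W.c₄
  · exact exact_of_supersingular base lifting hΔ hW ⟨fun hd => hW 3 Nat.prime_three hd hc4, hc4⟩
  · obtain ⟨W', hΔ', hW', h3', hp, hc⟩ := switchFivePeu W hΔ hW h5 hc4
    exact ModularityGlue.exactConductorLevel_of_congruent lifting (Or.inr rfl) hΔ hW h5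
      (exact_of_ordinaryOrPeu base lifting hΔ' hW' h3' hp) hc

/-- Every semistable model is exact-conductor modular. -/
theorem exactConductor (W : WeierstrassCurve ℤ) (hΔ : W.Δ ≠ 0)
    (hW : W.IsSemistableModel) : Mlc1IsModularModelOfExactConductorLevel W := by
  by_cases h3 : W.ModRepIsIrreducible 3
  · obtain ⟨W', hΔ', hW', h5', -, hc⟩ := SwitchThree.switchThreeToFive W hΔ hW h3
    exact ModularityGlue.exactConductorLevel_of_congruent lifting (Or.inl rfl) hΔ hW h3
      (exact_of_irreducible_five base lifting hΔ' hW' h5') hc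
  · exact exact_of_irreducible_five base lifting hΔ hW
      ((ThreeFive.three_or_five_irreducible W hΔ hW).resolve_left h3)

end Fermat.Agent.LT.Chain
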