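import Fermat.Agent.ModularityGlue.SemistableModular

/-!
# Statements of the residual base case and of the switches

Langlands–Tunnell is needed only at good supersingular reduction at three; three switches reduce
every semistable curve to that case.
-/

set_option autoImplicit false

open WeierstrassCurve

namespace Fermat.Agent.LT.Chain

/-- Good supersingular reduction at three. -/
def SupersingularAtThree (W : WeierstrassCurve ℤ) : Prop :=
  ¬ (3 : ℤ) ∣ W.Δ ∧ (3 : ℤ) ∣ W.c₄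

/-- Good ordinary, or multiplicative with `3 ∣ v₃(Δ)`, reduction at three. -/
def OrdinaryOrPeuAtThree (W : WeierstrassCurve ℤ) : Prop :=
  ¬ (3 : ℤ) ∣ W.c₄ ∧ ∃ (m : ℕ) (δ : ℤ), W.Δ = 3 ^ (3 * m) * δ ∧ ¬ (3 : ℤ) ∣ δ

/-- Good ordinary reduction at three with `a₃ = ±2`. -/
def OrdinaryTwoAtThree (W : WeierstrassCurve ℤ) : Prop :=
  ¬ (3 : ℤ) ∣ W.Δ ∧ ¬ (3 : ℤ) ∣ W.c₄ ∧ (3 : ℤ) ∣ W.Δ + W.c₄

/-- The residual base case. -/
def SupersingularBaseAtThree : Prop :=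
  ∀ W : WeierstrassCurve ℤ, W.Δ ≠ 0 → W.IsSemistableModel → W.ModRepIsIrreducible 3 →
    SupersingularAtThree W →
    ∃ M : ℕ, 0 < M ∧ W.IsResiduallyModularOfLevel 3 M ∧ ¬ 3 ^ 2 ∣ M ∧
      ∀ q : ℕ, q.Prime → q ≠ 3 → ¬ q ^ 3 ∣ M

/-- Congruence of traces modulo `p` at common good primes. -/
def CongruentAt (p : ℕ) (W W' : WeierstrassCurve ℤ) : Prop :=
  ∀ ℓ : ℕ, ℓ.Prime → W.IsGoodPrimeFor ℓ → W'.IsGoodPrimeFor ℓ → ℓ ≠ p →
    (p : ℤ) ∣ (W'.apOfModel ℓ - W.apOfModel ℓ)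

/-- The switch at three to `a₃ = ±2`. -/
def SwitchThreeOrdinary : Prop :=
  ∀ W : WeierstrassCurve ℤ, W.Δ ≠ 0 → W.IsSemistableModel → W.ModRepIsIrreducible 3 →
    OrdinaryOrPeuAtThree W →
    ∃ W' : WeierstrassCurve ℤ, W'.Δ ≠ 0 ∧ W'.IsSemistableModel ∧ W'.ModRepIsIrreducible 5 ∧
      OrdinaryTwoAtThree W' ∧ CongruentAt 3 W W'

/-- The switch at five from `a₃ = ±2` to supersingular reduction. -/
def SwitchFiveSupersingular : Prop :=
  ∀ W : WeierstrassCurve ℤ, W.Δ ≠ 0 → W.IsSemistableModel → W.ModRepIsIrreducible 5 →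
    OrdinaryTwoAtThree W →
    ∃ W' : WeierstrassCurve ℤ, W'.Δ ≠ 0 ∧ W'.IsSemistableModel ∧ SupersingularAtThree W' ∧
      CongruentAt 5 W W'

/-- The switch at five to a curve irreducible at three with ordinary or peu ramifiée reduction. -/
def SwitchFivePeu : Prop :=
  ∀ W : WeierstrassCurve ℤ, W.Δ ≠ 0 → W.IsSemistableModel → W.ModRepIsIrreducible 5 →
    ¬ (3 : ℤ) ∣ W.c₄ →
    ∃ W' : WeierstrassCurve ℤ, W'.Δ ≠ 0 ∧ W'.IsSemistableModel ∧ W'.ModRepIsIrreducible 3 ∧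
      OrdinaryOrPeuAtThree W' ∧ CongruentAt 5 W W'

end Fermat.Agent.LT.Chain
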