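import Fermat.Agent.LT.Chain.FiveIdentities
import Fermat.Agent.LT.Chain.FiveTraceThree
import Fermat.Agent.LT.Chain.Defs
import Fermat.Agent.SwitchThree.Models

/-!
# The switch at five to supersingular reduction: the computation at three

For good reduction with `a₃ = ±2`, parameters close to `(-2 c₆, c₄)` give, after removing a power
of three, a member with good supersingular reduction and `a₃` congruent to the original modulo five.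
-/

set_option autoImplicit false

open WeierstrassCurve

namespace Fermat.Agent.LT.Chain

open Switch35

/-- Congruent parameters give congruent invariants. -/
theorem fam_congr {n : ℕ} {l l' m m' : ℤ} (a b : ℤ) (hl : (n : ℤ) ∣ l - l')
    (hm : (n : ℤ) ∣ m - m') :
    (n : ℤ) ∣ famC4 l m a b - famC4 l' m' a b ∧ (n : ℤ) ∣ famC6 l m a b - famC6 l' m' a b := by
  have el : (l : ZMod n) = l' := by
    rw [← sub_eq_zero, ← Int.cast_sub]; exact (ZMod.intCast_zmod_eq_zero_iff_dvd _ _).2 hl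
  have em : (m : ZMod n) = m' := by
    rw [← sub_eq_zero, ← Int.cast_sub]; exact (ZMod.intCast_zmod_eq_zero_iff_dvd _ _).2 hm
  constructor <;> rw [← ZMod.intCast_zmod_eq_zero_iff_dvd, Int.cast_sub, sub_eq_zero]
  · simpa [el, em] using (map_famC4 (Int.castRingHom (ZMod n)) l m a b).trans
      ((map_famC4 (Int.castRingHom (ZMod n)) l' m' a b).trans (by simp [el, em])).symm
  · simpa [el, em] using (map_famC6 (Int.castRingHom (ZMod n)) l m a b).trans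
      ((map_famC6 (Int.castRingHom (ZMod n)) l' m' a b).trans (by simp [el, em])).symm

theorem ssQ_eq : ∀ s k : Fin 9, ssQ (1 + 3 * ((s.val : ℕ) : ZMod 9)) (2 + 3 * ((k.val : ℕ) : ZMod 9)) = 3 := by
  decide +kernel

theorem ssR_eq : ∀ s k : Fin 27,
    ssR (1 + 3 * ((s.val : ℕ) : ZMod 81)) (2 + 3 * ((k.val : ℕ) : ZMod 81)) = 27 := by
  decide +kernel

theorem ssQ_dvd {x D : ℤ} (hx : 3 ∣ x - 1) (hD : 3 ∣ D - 2) : (9 : ℤ) ∣ ssQ x D - 3 := by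
  obtain ⟨s, hs⟩ := hx
  obtain ⟨k, hk⟩ := hD
  rw [show x = 1 + 3 * s by linarith, show D = 2 + 3 * k by linarith]
  rw [show (9 : ℤ) = ((9 : ℕ) : ℤ) by norm_num, ← ZMod.intCast_zmod_eq_zero_iff_dvd]
  have h := ssQ_eq ⟨(s : ZMod 9).val, ZMod.val_lt _⟩ ⟨(k : ZMod 9).val, ZMod.val_lt _⟩
  simp only [ssQ, ZMod.natCast_zmod_val] at h ⊢
  push_cast
  rw [sub_eq_zero]
  exact h

theorem ssR_dvd {x D : ℤ} (hx : 3 ∣ x - 1) (hD : 3 ∣ D - 2) : (81 : ℤ) ∣ ssR x D - 27 := by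
  obtain ⟨s, hs⟩ := hx
  obtain ⟨k, hk⟩ := hD
  rw [show x = 1 + 3 * s by linarith, show D = 2 + 3 * k by linarith]
  rw [show (81 : ℤ) = ((81 : ℕ) : ℤ) by norm_num, ← ZMod.intCast_zmod_eq_zero_iff_dvd]
  have e : ∀ z : ℤ, (3 : ZMod 81) * (z : ZMod 81) = 3 * (((z % 27).toNat : ℕ) : ZMod 81) := by
    intro z
    have h0 : (((z % 27).toNat : ℕ) : ℤ) = z % 27 := Int.toNat_of_nonneg (Int.emod_nonneg _ (by norm_num))
    rw [← sub_eq_zero, ← Int.cast_natCast (R := ZMod 81) (z % 27).toNat, h0,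
      show (3 : ZMod 81) = ((3 : ℤ) : ZMod 81) by norm_num, ← Int.cast_mul, ← Int.cast_mul,
      ← Int.cast_sub, ZMod.intCast_zmod_eq_zero_iff_dvd]
    omega
  have h := ssR_eq ⟨(s % 27).toNat, by omega⟩ ⟨(k % 27).toNat, by omega⟩
  rw [← e, ← e] at h
  simp only [ssR] at h ⊢
  push_cast
  rw [sub_eq_zero]
  exact h

/-- The computation at three for the switch to supersingular reduction. -/
theorem exists_local_supersingular {W : WeierstrassCurve ℤ} (h : OrdinaryTwoAtThree W) {l m : ℤ}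
    (hl : (3 : ℤ) ^ 34 ∣ l - -2 * W.c₆) (hm : (3 : ℤ) ^ 34 ∣ m - W.c₄) :
    ∃ (A B : ℤ) (W₃ : WeierstrassCurve ℤ),
      3 ^ (4 * 5) * A = famC4 l m W.c₄ W.c₆ ∧ 3 ^ (6 * 5) * B = famC6 l m W.c₄ W.c₆ ∧
      3 ^ 8 ∣ A - W₃.c₄ ∧ 3 ^ 8 ∣ B - W₃.c₆ ∧ ¬ (3 : ℤ) ∣ W₃.Δ ∧ (3 : ℤ) ∣ W₃.c₄ ∧
      (5 : ℤ) ∣ W₃.apOfModel 3 - W.apOfModel 3 := by
  obtain ⟨hΔ, hc, hs⟩ := h
  have cast3 : ∀ z : ℤ, (z : ZMod 3) = 0 ↔ (3 : ℤ) ∣ z := fun z =>
    ZMod.intCast_zmod_eq_zero_iff_dvd z 3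
  have hrel : 1728 * W.Δ = W.c₄ ^ 3 - W.c₆ ^ 2 := W.c_relation
  -- residues modulo three
  have r4 : (W.c₄ : ZMod 3) ≠ 0 := mt (cast3 _).1 hc
  have rs : (W.Δ : ZMod 3) + W.c₄ = 0 := by simpa using (cast3 _).2 hs
  have r6 : (W.c₆ : ZMod 3) ^ 2 = (W.c₄ : ZMod 3) ^ 3 := by
    have := congrArg (Int.cast : ℤ → ZMod 3) hrel
    push_cast at this
    rw [show (1728 : ZMod 3) = 0 by decide, zero_mul] at this
    linear_combination this
  have key : ∀ a b d : ZMod 3, a ≠ 0 → d + a = 0 → b ^ 2 = a ^ 3 →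
      a - 1 = 0 ∧ b ^ 2 - 1 = 0 ∧ d - 2 = 0 ∧ b ≠ 0 := by decide
  obtain ⟨k4, k6, kD, hb⟩ := key _ _ _ r4 rs r6
  have h4 : (3 : ℤ) ∣ W.c₄ - 1 := (cast3 _).1 (by simpa using k4)
  have h6 : (3 : ℤ) ∣ W.c₆ ^ 2 - 1 := (cast3 _).1 (by simpa using k6)
  have hD : (3 : ℤ) ∣ W.Δ - 2 := (cast3 _).1 (by simpa using kD)
  -- the two forms
  obtain ⟨q₄, hq₄⟩ := famC4_supersingular W.c₄ W.c₆ W.Δ hrel
  obtain ⟨q₆, hq₆⟩ := famC6_supersingular W.c₄ W.c₆ W.Δ hrel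
  obtain ⟨e4, e6⟩ := fam_congr (n := 3 ^ 34) W.c₄ W.c₆ (by exact_mod_cast hl)
    (by exact_mod_cast hm)
  obtain ⟨t₄, ht₄⟩ := e4
  obtain ⟨t₆, ht₆⟩ := e6
  obtain ⟨u, hu⟩ := ssQ_dvd h6 hD
  obtain ⟨v, hv⟩ := ssR_dvd h6 hD
  obtain ⟨w, hw⟩ := h4
  push_cast at ht₄ ht₆
  set A : ℤ := W.c₄ * (ssQ (W.c₆ ^ 2) W.Δ + 9 * q₄) + 3 ^ 14 * t₄ with hA
  set B : ℤ := W.c₆ * (ssR (W.c₆ ^ 2) W.Δ + 81 * q₆) + 3 ^ 4 * t₆ with hB
  obtain ⟨A', hA', hA1⟩ : ∃ A', A = 3 * A' ∧ (3 : ℤ) ∣ A' - 1 :=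
    ⟨W.c₄ + 3 * W.c₄ * (u + q₄) + 3 ^ 13 * t₄, by rw [hA]; linear_combination W.c₄ * hu,
      ⟨w + W.c₄ * (u + q₄) + 3 ^ 12 * t₄, by linear_combination hw⟩⟩
  obtain ⟨B', hB', hB1⟩ : ∃ B', B = 27 * B' ∧ (3 : ℤ) ∣ B' - W.c₆ :=
    ⟨W.c₆ + 3 * W.c₆ * (v + q₆) + 3 * t₆, by rw [hB]; linear_combination W.c₆ * hv,
      ⟨W.c₆ * (v + q₆) + t₆, by ring⟩⟩
  let W₃ : WeierstrassCurve ℤ := ⟨0, 0, 0, -A' * 6151, -B' * 6356⟩
  have red : W₃.reductionMod 3 = ⟨0, 0, 0, 2, (W.c₆ : ZMod 3)⟩ := by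
    have ea : (A' : ZMod 3) = 1 := by
      rw [← sub_eq_zero]; exact_mod_cast (cast3 _).2 hA1
    have eb : (B' : ZMod 3) = (W.c₆ : ZMod 3) := by
      rw [← sub_eq_zero]; exact_mod_cast (cast3 _).2 hB1
    ext <;> simp [W₃, reductionMod, ea, eb]
    all_goals generalize (W.c₆ : ZMod 3) = x
    all_goals revert x
    all_goals decide
  refine ⟨A, B, W₃, ?_, ?_, ?_, ?_, ?_, ?_, ?_⟩
  · rw [hA]; linear_combination -ht₄ - hq₄
  · rw [hB]; linear_combination -ht₆ - hq₆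
  · rw [hA']
    refine ⟨-A' * 45, ?_⟩
    simp [W₃, WeierstrassCurve.c₄, WeierstrassCurve.b₂, WeierstrassCurve.b₄]; ring
  · rw [hB']
    refine ⟨-B' * 837, ?_⟩
    simp [W₃, WeierstrassCurve.c₆, WeierstrassCurve.b₂, WeierstrassCurve.b₄,
      WeierstrassCurve.b₆]; ring
  · intro h3
    have := congrArg WeierstrassCurve.Δ red
    rw [reductionMod, map_Δ, eq_intCast, (cast3 _).2 h3] at this
    exact Δ_supersingularModel _ this.symm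
  · exact ⟨A' * 98416, by
      simp [W₃, WeierstrassCurve.c₄, WeierstrassCurve.b₂, WeierstrassCurve.b₄]; ring⟩
  · have c4e : (W.reductionMod 3).c₄ = (W.c₄ : ZMod 3) := by simp [reductionMod]
    have c6e : (W.reductionMod 3).c₆ = (W.c₆ : ZMod 3) := by simp [reductionMod]
    have dde : (W.reductionMod 3).Δ = (W.Δ : ZMod 3) := by simp [reductionMod]
    rw [apOfModel, apOfModel, red, trace_supersingularModel hb,
      trace_ordinaryTwo _ (by rwa [c4e]) (by rwa [c4e, dde]), c6e]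
    split <;> norm_num

end Fermat.Agent.LT.Chain
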