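import Fermat.Agent.LT.Chain.FivePeuIdentities
import Fermat.Agent.LT.Chain.FiveSupersingularLocal
import Fermat.Agent.LT.Chain.ThreeOrdinary

/-!
# The switch at five towards finite flat reduction: the computation at three

For `3 ∤ c₄` every parameter close enough to a chosen one gives, after removing a power of three,
a member of the pencil with `3 ∤ c₄` and `3 ∣ v₃(Δ)`.
-/

set_option autoImplicit false

open WeierstrassCurve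

namespace Fermat.Agent.LT.Chain

open Switch35

theorem pow_dvd_of_sq_dvd {p x : ℤ} {e : ℕ} (h : (p ^ e) ^ 2 ∣ x ^ 2) : p ^ e ∣ x :=
  (Int.pow_dvd_pow_iff two_ne_zero).1 h

/-- What is needed at three for the switch at five to a curve with `3 ∤ c₄`. -/
def PeuLocalData (W : WeierstrassCurve ℤ) (k : ℕ) (l m : ℤ) : Prop :=
  ∃ (A B : ℤ) (W₃ : WeierstrassCurve ℤ),
    3 ^ (4 * k) * A = famC4 l m W.c₄ W.c₆ ∧ 3 ^ (6 * k) * B = famC6 l m W.c₄ W.c₆ ∧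
    3 ^ 8 ∣ A - W₃.c₄ ∧ 3 ^ 8 ∣ B - W₃.c₆ ∧ ¬ (3 : ℤ) ∣ W₃.c₄ ∧
    (¬ (3 : ℤ) ∣ W.Δ → W₃ = W) ∧
    ∀ W' : WeierstrassCurve ℤ, W'.c₄ = A → W'.c₆ = B → OrdinaryOrPeuAtThree W'

theorem peuLocalData_of_values {W : WeierstrassCurve ℤ} (h3 : (3 : ℤ) ∣ W.Δ)
    (n k vD j : ℕ) (l₀ U V δ : ℤ) (hΔ : W.Δ = 3 ^ n * δ) (hδ : ¬ (3 : ℤ) ∣ δ)
    (hU : famC4 l₀ W.c₄ W.c₄ W.c₆ = 3 ^ (4 * k) * U) (hU3 : ¬ (3 : ℤ) ∣ U)
    (hV : famD l₀ W.c₄ W.c₄ W.c₆ = 3 ^ vD * V) (hV3 : ¬ (3 : ℤ) ∣ V)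
    (hj : n + 5 * vD = 12 * k + 3 * (j + 1)) {l m : ℤ}
    (hl : (3 : ℤ) ^ (4 * k + vD + 8) ∣ l - l₀) (hm : (3 : ℤ) ^ (4 * k + vD + 8) ∣ m - W.c₄) :
    PeuLocalData W k l m := by
  have el : ((3 ^ (4 * k + vD + 8) : ℕ) : ℤ) ∣ l - l₀ := by exact_mod_cast hl
  have em : ((3 ^ (4 * k + vD + 8) : ℕ) : ℤ) ∣ m - W.c₄ := by exact_mod_cast hm
  obtain ⟨⟨s, hs⟩, -⟩ := fam_congr W.c₄ W.c₆ el em
  obtain ⟨r, hr⟩ := famD_congr W.c₄ W.c₆ el em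
  push_cast at hs hr
  set A := U + 3 ^ (vD + 8) * s with hAdef
  set V' := V + 3 ^ (4 * k + 8) * r with hVdef
  have hA : famC4 l m W.c₄ W.c₆ = 3 ^ (4 * k) * A := by
    rw [hAdef]; linear_combination hs + hU
  have hD : famD l m W.c₄ W.c₆ = 3 ^ vD * V' := by
    rw [hVdef]; linear_combination hr + hV
  have hA3 : ¬ (3 : ℤ) ∣ A := fun h => hU3 ((dvd_add_left
    (dvd_mul_of_dvd_left (dvd_pow_self 3 (by omega)) _)).1 h)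
  have hV'3 : ¬ (3 : ℤ) ∣ V' := fun h => hV3 ((dvd_add_left
    (dvd_mul_of_dvd_left (dvd_pow_self 3 (by omega)) _)).1 h)
  have hrel : W.c₄ ^ 3 - W.c₆ ^ 2 = 1728 * W.Δ := by rw [W.c_relation]
  have e6 : famC6 l m W.c₄ W.c₆ ^ 2
      = 3 ^ (12 * k) * (A ^ 3 - 1728 * 3 ^ (3 * (j + 1)) * (δ * V' ^ 5)) := by
    have e := fam_discriminant l m W.c₄ W.c₆
    rw [hA, hrel, hΔ, hD] at e
    have p1 : (3 : ℤ) ^ n * (3 ^ vD) ^ 5 = 3 ^ (12 * k) * 3 ^ (3 * (j + 1)) := by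
      rw [← pow_mul, ← pow_add, ← pow_add]; congr 1; omega
    linear_combination -e - (1728 * δ * V' ^ 5) * p1
  obtain ⟨B, hB⟩ : (3 : ℤ) ^ (6 * k) ∣ famC6 l m W.c₄ W.c₆ :=
    pow_dvd_of_sq_dvd ⟨_, by rw [e6, ← pow_mul]; congr 2; omega⟩
  have hB2 : A ^ 3 - B ^ 2 = 1728 * 3 ^ (3 * (j + 1)) * (δ * V' ^ 5) := by
    apply mul_left_cancel₀ (pow_ne_zero (12 * k) (by norm_num : (3 : ℤ) ≠ 0))
    have p2 : ((3 : ℤ) ^ (6 * k)) ^ 2 = 3 ^ (12 * k) := by rw [← pow_mul]; congr 1; omega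
    rw [hB] at e6
    linear_combination -e6 + B ^ 2 * p2
  obtain ⟨W₃, hA₃, hB₃⟩ := exists_local_three_ordinary A B hA3
    (by rw [hB2]; exact dvd_mul_of_dvd_left (dvd_mul_of_dvd_left (by norm_num) _) _)
  have hc₃ : ¬ (3 : ℤ) ∣ W₃.c₄ := fun h => hA3 ((dvd_iff_dvd_of_dvd_sub
    ((dvd_pow_self 3 (by norm_num : 8 ≠ 0)).trans hA₃)).mpr h)
  refine ⟨A, B, W₃, hA.symm, hB.symm, hA₃, hB₃, hc₃, fun h => absurd h3 h, fun W' h₄ h₆ => ?_⟩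
  refine ⟨by rwa [h₄], j + 1, δ * V' ^ 5, ?_, ?_⟩
  · apply mul_left_cancel₀ (by norm_num : (1728 : ℤ) ≠ 0)
    rw [W'.c_relation, h₄, h₆, hB2]; ring
  · intro h
    rcases Int.prime_three.dvd_or_dvd h with h | h
    · exact hδ h
    · exact hV'3 (Int.prime_three.dvd_of_dvd_pow h)

theorem not_dvd_lead {x b q : ℤ} (e : ℕ) (hb : ¬ (3 : ℤ) ∣ b) (hx : (3 : ℤ) ∣ x - b ^ e) :
    ¬ (3 : ℤ) ∣ x + 3 * q := fun h => hb (Int.prime_three.dvd_of_dvd_pow (n := e) (by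
  have := dvd_sub ((dvd_add_left (dvd_mul_right 3 q)).1 h) hx
  simpa using this))

theorem not_dvd_three_mul {x y : ℤ} (hx : ¬ (3 : ℤ) ∣ x) (hy : ¬ (3 : ℤ) ∣ y) :
    ¬ (3 : ℤ) ∣ x * y := fun h => (Int.prime_three.dvd_or_dvd h).elim hx hy

theorem not_dvd_three_pow {x : ℤ} (e : ℕ) (hx : ¬ (3 : ℤ) ∣ x) : ¬ (3 : ℤ) ∣ x ^ e :=
  fun h => hx (Int.prime_three.dvd_of_dvd_pow h)

theorem sq_sub_one_of_not_dvd {b : ℤ} (hb : ¬ (3 : ℤ) ∣ b) : (3 : ℤ) ∣ b ^ 2 - 1 := by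
  have k : ∀ x : ZMod 3, x ≠ 0 → x ^ 2 - 1 = 0 := by decide
  have := k _ (mt (ZMod.intCast_zmod_eq_zero_iff_dvd b 3).1 hb)
  exact (ZMod.intCast_zmod_eq_zero_iff_dvd _ 3).1 (by simpa using this)

/-- The parameters at three for the switch at five from a curve with `3 ∤ c₄`. -/
theorem exists_local_peu {W : WeierstrassCurve ℤ} (hΔ : W.Δ ≠ 0) (hc : ¬ (3 : ℤ) ∣ W.c₄) :
    ∃ (k N : ℕ) (l₀ m₀ : ℤ), ¬ ((3 : ℤ) ∣ l₀ ∧ (3 : ℤ) ∣ m₀) ∧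
      ∀ l m : ℤ, (3 : ℤ) ^ N ∣ l - l₀ → (3 : ℤ) ^ N ∣ m - m₀ → PeuLocalData W k l m := by
  have hb : ¬ (3 : ℤ) ∣ W.c₆ := fun h => hc (Int.prime_three.dvd_of_dvd_pow (n := 3) (by
    rw [show W.c₄ ^ 3 = 1728 * W.Δ + W.c₆ ^ 2 by rw [W.c_relation]; ring]
    exact dvd_add (dvd_mul_of_dvd_left (by norm_num) _) (dvd_pow h two_ne_zero)))
  obtain ⟨n, δ, hδ, hn⟩ := WfDvdMonoid.max_power_factor hΔ Int.prime_three.irreducible
  have hrel : 1728 * W.Δ = W.c₄ ^ 3 - W.c₆ ^ 2 := W.c_relation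
  obtain ⟨j, rfl⟩ | ⟨rfl⟩ | ⟨j, rfl⟩ | ⟨j, rfl⟩ :
      (∃ j, n = 3 * j) ∨ n = 1 ∨ (∃ j, n = 3 * j + 2) ∨ (∃ j, n = 3 * j + 4) := by
    rcases (show n % 3 = 0 ∨ n % 3 = 1 ∨ n % 3 = 2 by omega) with h | h | h
    · exact Or.inl ⟨n / 3, by omega⟩
    · rcases (show n = 1 ∨ 4 ≤ n by omega) with h' | h'
      · exact Or.inr (Or.inl h')
      · exact Or.inr (Or.inr (Or.inr ⟨(n - 4) / 3, by omega⟩))
    · exact Or.inr (Or.inr (Or.inl ⟨n / 3, by omega⟩))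
  · -- `(l, m)` near `(1, 0)`
    refine ⟨0, 3 * j + 8, 1, 0, by norm_num, fun l m hl hm => ?_⟩
    have el : ((3 ^ (3 * j + 8) : ℕ) : ℤ) ∣ l - 1 := by exact_mod_cast hl
    have em : ((3 ^ (3 * j + 8) : ℕ) : ℤ) ∣ m - 0 := by exact_mod_cast hm
    obtain ⟨g4, g6⟩ := fam_congr W.c₄ W.c₆ el em
    have gD := famD_congr W.c₄ W.c₆ el em
    rw [famC4_one_zero] at g4
    rw [famC6_one_zero] at g6
    rw [famD_one_zero] at gD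
    push_cast at g4 g6 gD
    refine ⟨_, _, W, by simp, by simp, (pow_dvd_pow 3 (by omega)).trans g4,
      (pow_dvd_pow 3 (by omega)).trans g6, hc, fun _ => rfl, fun W' h₄ h₆ => ?_⟩
    have d3 : (3 : ℤ) ∣ 3 ^ (3 * j + 8) := dvd_pow_self 3 (by omega)
    refine ⟨fun h => hc ?_, j, δ * famD l m W.c₄ W.c₆ ^ 5, ?_, not_dvd_three_mul hδ
      (not_dvd_three_pow _ fun h => ?_)⟩
    · rw [h₄] at h
      simpa using dvd_sub h (d3.trans g4)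
    · apply mul_left_cancel₀ (by norm_num : (1728 : ℤ) ≠ 0)
      rw [W'.c_relation, h₄, h₆, fam_discriminant, ← hrel, hn]; ring
    · have := dvd_sub h (d3.trans gD)
      norm_num at this
  · -- `v₃ Δ = 1`
    obtain ⟨q, hq⟩ := famC4_peu_nine W.c₄ W.c₆ δ (by linear_combination hrel - 1728 * hn)
    obtain ⟨r, hr⟩ := famD_peu_nine W.c₄ W.c₆ δ (by linear_combination hrel - 1728 * hn)
    refine ⟨6, 4 * 6 + 16 + 8, W.c₆ * (1 + 9 * (3 * δ)), W.c₄, fun h => hc h.2,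
      fun l m hl hm => peuLocalData_of_values ⟨δ, by rw [hn]; ring⟩ 1 6 16 2 _
        (δ ^ 4 * (W.c₄ * (1 * W.c₆ ^ 12 + 3 * q)))
        (δ ^ 3 * (1 * W.c₆ ^ 6 + 2 * W.c₆ ^ 8 + 1 * W.c₆ ^ 4 * δ + 3 * r)) δ hn hδ
        (by linear_combination hq)
        (not_dvd_three_mul (not_dvd_three_pow 4 hδ)
          (not_dvd_three_mul hc (not_dvd_lead 12 hb (by simp))))
        (by linear_combination hr) (not_dvd_three_mul (not_dvd_three_pow 3 hδ) ?_) rfl hl hm⟩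
    obtain ⟨s, hs⟩ := sq_sub_one_of_not_dvd hb
    intro h
    refine not_dvd_three_mul (not_dvd_three_pow 4 hb) hδ ?_
    have h' : (3 : ℤ) ∣ W.c₆ ^ 6 * (1 + 2 * W.c₆ ^ 2) + 3 * r :=
      dvd_add (dvd_mul_of_dvd_right ⟨1 + 2 * s, by linear_combination 2 * hs⟩ _) (dvd_mul_right 3 r)
    refine (dvd_add_right h').1 ?_
    rw [show W.c₆ ^ 6 * (1 + 2 * W.c₆ ^ 2) + 3 * r + W.c₆ ^ 4 * δ
      = 1 * W.c₆ ^ 6 + 2 * W.c₆ ^ 8 + 1 * W.c₆ ^ 4 * δ + 3 * r by ring]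
    exact h
  · obtain ⟨q, hq⟩ := famC4_peu_one W.c₄ W.c₆ (3 ^ (3 * j) * δ)
      (by linear_combination hrel - 1728 * hn)
    obtain ⟨r, hr⟩ := famD_peu_one W.c₄ W.c₆ (3 ^ (3 * j) * δ)
      (by linear_combination hrel - 1728 * hn)
    refine ⟨7 + 3 * j, 4 * (7 + 3 * j) + (17 + 9 * j) + 8,
      W.c₆ * (1 + 9 * (3 ^ (3 * j) * δ)), W.c₄, fun h => hc h.2,
      fun l m hl hm => peuLocalData_of_values ⟨3 ^ (3 * j + 1) * δ, by rw [hn]; ring⟩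
        (3 * j + 2) _ (17 + 9 * j) (4 * j) _
        (δ ^ 4 * (W.c₄ * (1 * W.c₆ ^ 12 + 3 * q)))
        (δ ^ 3 * (2 * W.c₆ ^ 8 + 3 * r)) δ hn hδ
        (by linear_combination hq)
        (not_dvd_three_mul (not_dvd_three_pow 4 hδ)
          (not_dvd_three_mul hc (not_dvd_lead 12 hb (by simp))))
        (by linear_combination hr) (not_dvd_three_mul (not_dvd_three_pow 3 hδ) ?_)
        (by ring) hl hm⟩
    intro h
    exact not_dvd_three_mul (by norm_num : ¬ (3 : ℤ) ∣ 2) (not_dvd_three_pow 8 hb)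
      ((dvd_add_left (dvd_mul_right 3 r)).1 h)
  · obtain ⟨q, hq⟩ := famC4_peu_zero W.c₄ W.c₆ (3 ^ (3 * j + 3) * δ)
      (by linear_combination hrel - 1728 * hn)
    obtain ⟨r, hr⟩ := famD_peu_zero W.c₄ W.c₆ (3 ^ (3 * j + 3) * δ)
      (by linear_combination hrel - 1728 * hn)
    refine ⟨9 + 3 * j, 4 * (9 + 3 * j) + (25 + 9 * j) + 8, W.c₆, W.c₄, fun h => hc h.2,
      fun l m hl hm => peuLocalData_of_values ⟨3 ^ (3 * j + 3) * δ, by rw [hn]; ring⟩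
        (3 * j + 4) _ (25 + 9 * j) (4 * j + 6) _
        (δ ^ 4 * (W.c₄ * (1 * W.c₆ ^ 12 + 3 * q)))
        (δ ^ 3 * (1 * W.c₆ ^ 6 + 1 * W.c₆ ^ 4 * (3 ^ (3 * j + 3) * δ) + 3 * r)) δ hn hδ
        (by linear_combination hq)
        (not_dvd_three_mul (not_dvd_three_pow 4 hδ)
          (not_dvd_three_mul hc (not_dvd_lead 12 hb (by simp))))
        (by linear_combination hr)
        (not_dvd_three_mul (not_dvd_three_pow 3 hδ) (not_dvd_lead 6 hb ?_))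
        (by ring) hl hm⟩
    exact ⟨W.c₆ ^ 4 * 3 ^ (3 * j + 2) * δ, by ring⟩

end Fermat.Agent.LT.Chain
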