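import Fermat.Agent.LT.Chain.FiveSupersingularLocal
import Fermat.Agent.LT.Chain.FivePeuLocal
import Fermat.Agent.Switch35.Assembly
import Fermat.Agent.SwitchThree.Main

/-!
# The two switches at five

Both use a member of a pencil of curves with the same `5`-torsion whose parameter is prescribed
locally: at three it gives either supersingular reduction, or ordinary or finite flat reduction,
and at the auxiliary places semistability and, in the second switch, irreducible `3`-torsion.
-/

set_option autoImplicit false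

open WeierstrassCurve

namespace Fermat.Agent.LT.Chain

open Switch35

/-- The switch from `a₃ = ±2` to supersingular reduction. -/
theorem switchFiveSupersingular : SwitchFiveSupersingular := by
  intro W hΔ hW _ hW3
  obtain ⟨W', W₃, l, m, hΔ', hss, -, hcong, hred, ⟨hg, hs⟩, -, -, -, -, -, -⟩ :=
    exists_switch_local W hΔ hW 34 5 (-2 * W.c₆) W.c₄
      (fun V => ¬ (3 : ℤ) ∣ V.Δ ∧ (3 : ℤ) ∣ V.c₄) (fun l m hl hm => by
        obtain ⟨A, B, W₃, h4, h6, a4, a6, hg, hs, ha⟩ := exists_local_supersingular hW3 hl hm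
        exact ⟨A, B, W₃, h4.symm, h6.symm, a4, a6, fun h => hg h.1, fun _ _ => ha, hg, hs⟩)
  obtain ⟨e4, -, -⟩ := SwitchThree.dvd_c₄_c₆_sub hred
  exact ⟨W', hΔ', hss, ⟨fun h => hg ((SwitchThree.dvd_Δ_iff_of_reductionMod hred).mp h),
    (dvd_iff_dvd_of_dvd_sub e4).mpr hs⟩, hcong⟩

/-- The switch to a curve irreducible at three with ordinary or finite flat reduction. -/
theorem switchFivePeu : SwitchFivePeu := by
  intro W hΔ hW _ hc
  obtain ⟨k, N, l₀, m₀, -, hloc⟩ := exists_local_peu hΔ hc
  obtain ⟨W', W₃, l, m, hΔ', hss, hirr, hcong, -, -, hl, hm, h4, h6, -, -⟩ :=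
    exists_switch_local W hΔ hW N k l₀ m₀ (fun _ => True) (fun l m hl hm => by
      obtain ⟨A, B, W₃, h4, h6, a4, a6, hc₃, hsame, -⟩ := hloc l m hl hm
      exact ⟨A, B, W₃, h4.symm, h6.symm, a4, a6, fun h => hc₃ h.2,
        fun hg _ => by simp [hsame hg], trivial⟩)
  obtain ⟨A, B, -, e4, e6, -, -, -, -, hQ⟩ := hloc l m hl hm
  exact ⟨W', hΔ', hss, hirr, hQ W' (mul_left_cancel₀ (by positivity) (h4.symm.trans e4.symm))
    (mul_left_cancel₀ (by positivity) (h6.symm.trans e6.symm)), hcong⟩

end Fermat.Agent.LT.Chain
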